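import Mathlib

/-!
The total degree valuation ring of a rational function field, and a count of monomials.
-/

set_option autoImplicit false

open MvPolynomial

namespace FLTA.AbelianVar.Growth

variable {σ k : Type*} [Field k]

local notation "P" => MvPolynomial σ k
local notation "FF" => FractionRing (MvPolynomial σ k)
local notation "ι" => algebraMap (MvPolynomial σ k) (FractionRing (MvPolynomial σ k))

theorem totalDegree_mul_le_add {p q : P} : (p * q).totalDegree ≤ p.totalDegree + q.totalDegree :=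
  totalDegree_mul p q

theorem degree_add_closed {a b : FF}
    (ha : ∃ p q : P, q ≠ 0 ∧ p.totalDegree ≤ q.totalDegree ∧ a = ι p / ι q)
    (hb : ∃ p q : P, q ≠ 0 ∧ p.totalDegree ≤ q.totalDegree ∧ b = ι p / ι q) :
    ∃ p q : P, q ≠ 0 ∧ p.totalDegree ≤ q.totalDegree ∧ a + b = ι p / ι q := by
  obtain ⟨p, q, hq, hd, rfl⟩ := ha
  obtain ⟨p', q', hq', hd', rfl⟩ := hb
  refine ⟨p * q' + q * p', q * q', mul_ne_zero hq hq', ?_, ?_⟩
  · rw [totalDegree_mul_of_isDomain hq hq']
    refine (totalDegree_add _ _).trans (max_le ?_ ?_)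
    · exact (totalDegree_mul _ _).trans (by omega)
    · exact (totalDegree_mul _ _).trans (by omega)
  · rw [div_add_div _ _ (by simpa using hq) (by simpa using hq'), map_add, map_mul, map_mul,
      map_mul]

variable (σ k)

/-- Rational functions of nonpositive total degree. -/
noncomputable def degRing : ValuationSubring FF where
  carrier := {a | ∃ p q : P, q ≠ 0 ∧ p.totalDegree ≤ q.totalDegree ∧ a = ι p / ι q}
  one_mem' := ⟨1, 1, one_ne_zero, le_rfl, by simp⟩
  zero_mem' := ⟨0, 1, one_ne_zero, by simp, by simp⟩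
  mul_mem' := by
    rintro a b ⟨p, q, hq, hd, rfl⟩ ⟨p', q', hq', hd', rfl⟩
    refine ⟨p * p', q * q', mul_ne_zero hq hq', ?_, by rw [map_mul, map_mul, div_mul_div_comm]⟩
    rw [totalDegree_mul_of_isDomain hq hq']
    exact (totalDegree_mul _ _).trans (by omega)
  add_mem' := degree_add_closed
  neg_mem' := by
    rintro a ⟨p, q, hq, hd, rfl⟩
    exact ⟨-p, q, hq, by rwa [totalDegree_neg], by rw [map_neg, neg_div]⟩
  mem_or_inv_mem' := fun a => by
    obtain ⟨p, q, hq, rfl⟩ := IsFractionRing.div_surjective (A := P) a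
    have hq0 : q ≠ 0 := nonZeroDivisors.ne_zero hq
    rcases le_total p.totalDegree q.totalDegree with h | h
    · exact Or.inl ⟨p, q, hq0, h, rfl⟩
    · by_cases hp : p = 0
      · subst hp
        exact Or.inl ⟨0, 1, one_ne_zero, by simp, by simp⟩
      · exact Or.inr ⟨q, p, hp, h, inv_div _ _⟩

variable {σ k}

theorem mem_degRing {a : FF} :
    a ∈ degRing σ k ↔ ∃ p q : P, q ≠ 0 ∧ p.totalDegree ≤ q.totalDegree ∧ a = ι p / ι q := Iff.rfl

theorem algebraMap_mem_degRing (c : k) : algebraMap k FF c ∈ degRing σ k :=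
  ⟨C c, 1, one_ne_zero, by simp, by simp [IsScalarTower.algebraMap_apply k P FF]⟩

theorem finite_and_finrank_le_pow [Fintype σ] (N : ℕ) (S : Submodule k FF)
    (hS : ∀ a ∈ S, ∃ p : P, p.totalDegree ≤ N ∧ a = ι p) :
    Module.Finite k S ∧ Module.finrank k S ≤ (N + 1) ^ Fintype.card σ := by
  classical
  let f : restrictDegree σ k N →ₗ[k] FF :=
    (IsScalarTower.toAlgHom k P FF).toLinearMap.comp (restrictDegree σ k N).subtype
  have hle : S ≤ LinearMap.range f := by
    intro a ha
    obtain ⟨p, hp, rfl⟩ := hS a ha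
    exact ⟨⟨p, restrictTotalDegree_le_restrictDegree σ k N
      ((mem_restrictTotalDegree _ _ _).2 hp)⟩, rfl⟩
  refine ⟨Submodule.finiteDimensional_of_le hle, ?_⟩
  refine ((Submodule.finrank_mono hle).trans (LinearMap.finrank_range_le f)).trans (le_of_eq ?_)
  let e : (σ → Fin (N + 1)) ≃ {n : σ →₀ ℕ | ∀ i, n i ≤ N} :=
    { toFun := fun s => ⟨Finsupp.equivFunOnFinite.symm fun i => (s i : ℕ),
        fun i => by simp; omega⟩
      invFun := fun n i => ⟨n.1 i, Nat.lt_succ_of_le (n.2 i)⟩
      left_inv := fun s => by ext i; simp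
      right_inv := fun n => by ext i; simp }
  unfold restrictDegree
  rw [Module.finrank_eq_card_basis ((MvPolynomial.basisRestrictSupport k _).reindex e.symm)]
  simp

end FLTA.AbelianVar.Growth
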