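import Fermat.Agent.AbelianVar.Growth.Model
import Fermat.Agent.AbelianVar.Growth.Degree

/-!
# Growth of `dim L(mD)`

`dim L(mD) ≤ C (m+1)^g` and `(t+1)^g ≤ dim L(c t D)` where `g` is the transcendence degree.
-/

set_option autoImplicit false

open MvPolynomial Module

namespace FLTA.AbelianVar.Growth.DivisorModel

variable {k L : Type*} [Field k] [Field L] [Algebra k L] (M : DivisorModel k L)

/-- Elements of `L(mD)` times `b`, times a high power of a common denominator, are integral. -/
theorem isIntegralElem_pow_mul {A : Type*} [CommRing A] (j : A →+* L) (d : A)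
    (hk : ∀ c : k, ∃ y, j y = algebraMap k L c) {b : L} (hb : j.IsIntegralElem (j d * b))
    (he : ∀ i, j.IsIntegralElem (j d * (M.eqn i)⁻¹)) {m : ℕ} {f : L} (hf : f ∈ M.space m) :
    j.IsIntegralElem (j d ^ (m + 1) * (f * b)) := by
  refine isIntegralElem_of_forall_mem j fun w hw => ?_
  obtain ⟨i, hi⟩ := M.cover w fun c => by obtain ⟨y, hy⟩ := hk c; exact hy ▸ hw y
  have h1 : M.eqn i ^ m * f ∈ w := hi _ (M.mem_space.1 hf i)
  have h2 := mem_of_isIntegralElem j w hw (he i)
  have h3 := mem_of_isIntegralElem j w hw hb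
  have h4 : j d ^ (m + 1) * (f * b) =
      (M.eqn i ^ m * f) * (j d * (M.eqn i)⁻¹) ^ m * (j d * b) := by
    have h5 : M.eqn i ^ m * ((M.eqn i) ^ m)⁻¹ = 1 :=
      mul_inv_cancel₀ (pow_ne_zero m (M.eqn_ne i))
    rw [mul_pow, inv_pow]
    linear_combination (-(j d ^ (m + 1)) * f * b) * h5
  rw [h4]
  exact mul_mem (mul_mem h1 (pow_mem h2 m)) h3

section Tower

variable {σ : Type*}

local notation "P" => MvPolynomial σ k
local notation "FF" => FractionRing (MvPolynomial σ k)

/-- A rational function with bounded poles on affine space and at infinity is a polynomial of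
bounded degree. -/
theorem exists_polynomial_of_mem {δ p q : P} (hp : p ≠ 0) (hq : q ≠ 0) (n : ℕ) {T : FF}
    (hP : ∃ r : P, algebraMap P FF r = algebraMap P FF δ ^ n * T)
    (hO : (algebraMap P FF p / algebraMap P FF q) ^ n * T ∈ degRing σ k) :
    ∃ r : P, r.totalDegree ≤ n * (δ.totalDegree + q.totalDegree) ∧
      algebraMap P FF δ ^ n * T = algebraMap P FF r := by
  obtain ⟨r, hr⟩ := hP
  refine ⟨r, ?_, hr.symm⟩
  obtain ⟨p', q', hq', hpq', h1⟩ := mem_degRing.1 hO
  by_cases hr0 : r = 0
  · simp [hr0]
  have hqF : algebraMap P FF q ≠ 0 := by simpa using hq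
  have hq'F : algebraMap P FF q' ≠ 0 := by simpa using hq'
  rw [div_pow, div_mul_eq_mul_div, div_eq_div_iff (pow_ne_zero _ hqF) hq'F] at h1
  have heq : r * p ^ n * q' = δ ^ n * q ^ n * p' := by
    refine IsFractionRing.injective P FF ?_
    simp only [map_mul, map_pow, hr]
    linear_combination ((algebraMap P FF δ) ^ n) * h1
  have hδ : δ ^ n ≠ 0 := by
    intro h
    rw [h, zero_mul, zero_mul] at heq
    exact mul_ne_zero (mul_ne_zero hr0 (pow_ne_zero _ hp)) hq' heq
  have hp'0 : p' ≠ 0 := by
    rintro rfl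
    rw [mul_zero] at heq
    exact mul_ne_zero (mul_ne_zero hr0 (pow_ne_zero _ hp)) hq' heq
  have h2 := congrArg totalDegree heq
  rw [totalDegree_mul_of_isDomain (mul_ne_zero hr0 (pow_ne_zero _ hp)) hq',
    totalDegree_mul_of_isDomain hr0 (pow_ne_zero _ hp),
    totalDegree_mul_of_isDomain (mul_ne_zero hδ (pow_ne_zero _ hq)) hp'0,
    totalDegree_mul_of_isDomain hδ (pow_ne_zero _ hq)] at h2
  have h3 : (δ ^ n).totalDegree ≤ n * δ.totalDegree := totalDegree_pow _ _
  have h4 : (q ^ n).totalDegree ≤ n * q.totalDegree := totalDegree_pow _ _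
  rw [Nat.mul_add]
  omega

variable [Algebra (MvPolynomial σ k) L] [Algebra (FractionRing (MvPolynomial σ k)) L]
  [IsScalarTower (MvPolynomial σ k) (FractionRing (MvPolynomial σ k)) L]
  [IsScalarTower k (FractionRing (MvPolynomial σ k)) L]
  [FiniteDimensional (FractionRing (MvPolynomial σ k)) L]

theorem exists_trace_bound (b : Fin (finrank FF L) → L) :
    ∃ (δ : P) (D : ℕ), δ ≠ 0 ∧ ∀ m, ∀ f ∈ M.space m, ∀ i, ∃ r : P,
      r.totalDegree ≤ (m + 1) * D ∧
        algebraMap P FF δ ^ (m + 1) * Algebra.trace FF L (f * b i) = algebraMap P FF r := by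
  classical
  let O : ValuationSubring FF := degRing σ k
  let jO : O →+* L := (algebraMap FF L).comp (algebraMap O FF)
  let : Algebra O L := jO.toAlgebra
  have : IsScalarTower O FF L := IsScalarTower.of_algebraMap_eq fun _ => rfl
  let S : Finset L := (Finset.univ.image b) ∪ (Finset.univ.image fun i => (M.eqn i)⁻¹)
  have hkL : ∀ c : k, algebraMap k L c = algebraMap FF L (algebraMap k FF c) :=
    fun c => IsScalarTower.algebraMap_apply k FF L c
  obtain ⟨δ, hδ0, hδ⟩ := exists_integral_multiples P FF S
  obtain ⟨a, ha0, ha⟩ := exists_integral_multiples O FF S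
  obtain ⟨p, q, hq0, hpq, hapq⟩ := a.2
  have hp0 : p ≠ 0 := fun h => ha0 <| Subtype.ext <| by rw [hapq, h]; simp
  have hSb : ∀ j, b j ∈ S := fun j =>
    Finset.mem_union_left _ (Finset.mem_image_of_mem _ (Finset.mem_univ j))
  have hSi : ∀ i, (M.eqn i)⁻¹ ∈ S := fun i =>
    Finset.mem_union_right _ (Finset.mem_image.2 ⟨i, Finset.mem_univ i, rfl⟩)
  have hdP : ∀ y ∈ S, (algebraMap P L).IsIntegralElem (algebraMap P L δ * y) := fun y hy => by
    have := hδ y hy
    rwa [Algebra.smul_def] at this
  have hdO : ∀ y ∈ S, (algebraMap O L).IsIntegralElem (algebraMap O L a * y) := fun y hy => by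
    have := ha y hy
    rwa [Algebra.smul_def] at this
  refine ⟨δ, δ.totalDegree + q.totalDegree, hδ0, fun m f hf i => ?_⟩
  have hP : IsIntegral P ((δ ^ (m + 1)) • (f * b i)) := by
    rw [Algebra.smul_def, map_pow]
    refine M.isIntegralElem_pow_mul _ δ (fun c => ⟨C c, ?_⟩) (hdP _ (hSb i))
      (fun i' => hdP _ (hSi i')) hf
    rw [hkL, IsScalarTower.algebraMap_apply P FF L]
    exact congrArg _ (IsScalarTower.algebraMap_apply k P FF c).symm
  have hO : IsIntegral O ((a ^ (m + 1)) • (f * b i)) := by
    rw [Algebra.smul_def, map_pow]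
    refine M.isIntegralElem_pow_mul _ a (fun c => ?_) (hdO _ (hSb i))
      (fun i' => hdO _ (hSi i')) hf
    exact ⟨⟨algebraMap k FF c, algebraMap_mem_degRing c⟩, (hkL c).symm⟩
  have hP' := Algebra.isIntegral_trace (L := FF) hP
  have hO' := Algebra.isIntegral_trace (L := FF) hO
  rw [LinearMap.map_smul_of_tower, Algebra.smul_def, map_pow] at hP' hO'
  refine exists_polynomial_of_mem hp0 hq0 _
    ((IsIntegrallyClosed.isIntegral_iff (R := P) (K := FF)).1 hP') ?_
  obtain ⟨y, hy⟩ := (IsIntegrallyClosed.isIntegral_iff (R := O) (K := FF)).1 hO'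
  rw [← hapq]
  exact hy ▸ y.2

theorem finite_and_finrank_space_le_of_tower [Fintype σ]
    [Algebra.IsSeparable (FractionRing (MvPolynomial σ k)) L] :
    ∃ C, ∀ m, Module.Finite k (M.space m) ∧
      finrank k (M.space m) ≤ C * (m + 1) ^ Fintype.card σ := by
  classical
  let b := finBasis FF L
  obtain ⟨δ, D, hδ0, key⟩ := M.exists_trace_bound (σ := σ) b
  refine ⟨finrank FF L * (D + 1) ^ Fintype.card σ, fun m => ?_⟩
  let G : Fin (finrank FF L) → (M.space m →ₗ[k] FF) := fun i =>
    (LinearMap.mul k FF (algebraMap P FF δ ^ (m + 1))).comp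
      ((((Algebra.trace FF L).restrictScalars k).comp (LinearMap.mulRight k (b i))).comp
        (M.space m).subtype)
  have hG : ∀ i, Module.Finite k (LinearMap.range (G i)) ∧
      finrank k (LinearMap.range (G i)) ≤ ((m + 1) * D + 1) ^ Fintype.card σ := fun i =>
    finite_and_finrank_le_pow _ _ <| by
      rintro _ ⟨⟨f, hf⟩, rfl⟩
      exact key m f hf i
  have hfin (i) : Module.Finite k (LinearMap.range (G i)) := (hG i).1
  let H : M.space m →ₗ[k] ∀ i, LinearMap.range (G i) :=
    LinearMap.pi fun i => (G i).rangeRestrict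
  have hH : Function.Injective H := by
    rw [injective_iff_map_eq_zero]
    intro f hf
    have h0 : ∀ i, Algebra.trace FF L ((f : L) * b i) = 0 := fun i => by
      have h1 : algebraMap P FF δ ^ (m + 1) * Algebra.trace FF L ((f : L) * b i) = 0 :=
        congrArg Subtype.val (congrFun hf i)
      exact (mul_eq_zero.1 h1).resolve_left (pow_ne_zero _ (by simpa using hδ0))
    apply Subtype.ext
    refine (traceForm_nondegenerate FF L).1 (f : L) fun y => ?_
    rw [Algebra.traceForm_apply, ← b.sum_repr y, Finset.mul_sum, map_sum]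
    exact Finset.sum_eq_zero fun j _ => by rw [mul_smul_comm, map_smul, h0, smul_zero]
  have : Module.Finite k (∀ i, LinearMap.range (G i)) := Module.Finite.pi
  refine ⟨Module.Finite.of_injective H hH, ?_⟩
  refine (LinearMap.finrank_le_finrank_of_injective hH).trans ?_
  rw [finrank_pi_fintype, mul_assoc, ← mul_pow]
  refine (Finset.sum_le_sum fun i _ => (hG i).2).trans ?_
  rw [Finset.sum_const, Finset.card_univ, Fintype.card_fin, smul_eq_mul]
  gcongr
  ring_nf
  omega

end Tower

/-- `dim L(mD)` is finite and grows at most like `m^g`. -/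
theorem finite_and_finrank_space_le [PerfectField k] [Algebra.EssFiniteType k L] :
    ∃ C, ∀ m, Module.Finite k (M.space m) ∧
      finrank k (M.space m) ≤ C * (m + 1) ^ (Cardinal.toNat (Algebra.trdeg k L)) := by
  classical
  obtain ⟨s, hs, hsep⟩ := exists_isTranscendenceBasis_and_isSeparable_of_perfectField k L
  let σ := {x // x ∈ (s : Set L)}
  have : Fintype σ := (s.finite_toSet).fintype
  let x : σ → L := Subtype.val
  have hx : AlgebraicIndependent k x := hs.1
  let ι' : FractionRing (MvPolynomial σ k) →ₐ[k] L := (IntermediateField.val _).comp hx.aevalEquivField.toAlgHom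
  let : Algebra (FractionRing (MvPolynomial σ k)) L := ι'.toRingHom.toAlgebra
  let : Algebra (MvPolynomial σ k) L := (ι'.toRingHom.comp (algebraMap (MvPolynomial σ k) (FractionRing (MvPolynomial σ k)))).toAlgebra
  have : IsScalarTower (MvPolynomial σ k) (FractionRing (MvPolynomial σ k)) L := IsScalarTower.of_algebraMap_eq fun _ => rfl
  have : IsScalarTower k (FractionRing (MvPolynomial σ k)) L := IsScalarTower.of_algebraMap_eq fun c => (ι'.commutes c).symm
  have hrange : Set.range x = (s : Set L) := Subtype.range_coe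
  have : Algebra.IsSeparable (IntermediateField.adjoin k (Set.range x)) L := by
    rw [hrange]; exact hsep
  have : Algebra.IsSeparable (FractionRing (MvPolynomial σ k)) L :=
    Algebra.IsSeparable.of_equiv_equiv (hx.aevalEquivField.toRingEquiv.symm) (RingEquiv.refl L)
      (by
        ext y
        simp only [RingHom.coe_comp, RingHom.coe_coe, Function.comp_apply, RingEquiv.refl_apply,
          RingHom.algebraMap_toAlgebra]
        exact congrArg Subtype.val (hx.aevalEquivField.apply_symm_apply y))
  have : Algebra.EssFiniteType (FractionRing (MvPolynomial σ k)) L := Algebra.EssFiniteType.of_comp k (FractionRing (MvPolynomial σ k)) L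
  have : FiniteDimensional (FractionRing (MvPolynomial σ k)) L := by
    obtain ⟨T, hT⟩ := IntermediateField.fg_top (FractionRing (MvPolynomial σ k)) L
    have := IntermediateField.finiteDimensional_adjoin (K := (FractionRing (MvPolynomial σ k))) (S := (T : Set L))
      fun y _ => (Algebra.IsSeparable.isSeparable (FractionRing (MvPolynomial σ k)) y).isIntegral
    rw [hT] at this
    exact Module.Finite.equiv IntermediateField.topEquiv.toLinearEquiv
  have hcard : Cardinal.toNat (Algebra.trdeg k L) = Fintype.card σ := by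
    rw [← hs.cardinalMk_eq_trdeg, Cardinal.mk_toNat_eq_card]
    exact Fintype.card_congr (Equiv.refl _)
  rw [hcard]
  exact M.finite_and_finrank_space_le_of_tower (σ := σ)

/-- `dim L(mD)` grows at least like `m^g`. -/
theorem exists_pow_le_finrank_space [Algebra.EssFiniteType k L]
    [∀ m, Module.Finite k (M.space m)] :
    ∃ c, 0 < c ∧ ∀ t, (t + 1) ^ (Cardinal.toNat (Algebra.trdeg k L)) ≤
      finrank k (M.space (c * t)) := by
  classical
  have : Algebra.IsAlgebraic (Algebra.adjoin k (M.R M.aff : Set L)) L := ⟨fun x => by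
    obtain ⟨b, hb, hb0, hbx⟩ := M.frac_aff x
    refine ⟨Polynomial.C ⟨b, Algebra.subset_adjoin hb⟩ * Polynomial.X -
      Polynomial.C ⟨b * x, Algebra.subset_adjoin hbx⟩, fun h => hb0 ?_, by simp⟩
    simpa using congrArg (fun p => ((p.coeff 1 : Algebra.adjoin k (M.R M.aff : Set L)) : L)) h⟩
  obtain ⟨t, hts, ht⟩ := exists_isTranscendenceBasis_subset (R := k) (M.R M.aff : Set L)
  have htf : t.Finite := by
    obtain ⟨T, hT⟩ := IntermediateField.fg_top k L
    have : Algebra.IsAlgebraic (Algebra.adjoin k (T : Set L)) L := by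
      rw [← IntermediateField.isAlgebraic_adjoin_iff_top, hT, Algebra.isAlgebraic_iff_isIntegral]
      exact Algebra.isIntegral_of_surjective IntermediateField.topEquiv.surjective
    obtain ⟨u, hu, hub⟩ := exists_isTranscendenceBasis_subset (R := k) (T : Set L)
    have hu' : Cardinal.mk u < Cardinal.aleph0 :=
      Cardinal.lt_aleph0_iff_finite.2 (T.finite_toSet.subset hu).to_subtype
    rw [hub.cardinalMk_eq_trdeg, ← ht.cardinalMk_eq_trdeg] at hu'
    exact Set.finite_coe_iff.1 (Cardinal.lt_aleph0_iff_finite.1 hu')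
  let _ := htf.fintype
  obtain ⟨c, hc⟩ := M.exists_mem_space t.toFinset fun x hx => hts (by simpa using hx)
  have hcard : Cardinal.toNat (Algebra.trdeg k L) = Fintype.card t := by
    rw [← ht.cardinalMk_eq_trdeg, Cardinal.mk_toNat_eq_card]
  refine ⟨c * Fintype.card t + 1, Nat.succ_pos _, fun n => ?_⟩
  rw [hcard]
  let e : (t → Fin (n + 1)) → (t →₀ ℕ) := fun s => Finsupp.equivFunOnFinite.symm fun i => (s i : ℕ)
  have he : Function.Injective e := fun s s' h => by
    ext i; simpa [e] using DFunLike.congr_fun h i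
  let v : (t → Fin (n + 1)) → L := fun s => ∏ i : t, (i : L) ^ (s i : ℕ)
  have hv : LinearIndependent k v := by
    have h2 := ((MvPolynomial.basisMonomials t k).linearIndependent.comp e he).map'
      (MvPolynomial.aeval ((↑) : t → L)).toLinearMap
      (LinearMap.ker_eq_bot.2 (algebraicIndependent_iff_injective_aeval.1 ht.1))
    have hve : v = ⇑(MvPolynomial.aeval ((↑) : t → L)).toLinearMap ∘
        ⇑(MvPolynomial.basisMonomials t k) ∘ e := by
      funext s
      simp [v, e, MvPolynomial.coe_basisMonomials, MvPolynomial.aeval_monomial,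
        Finsupp.prod_fintype]
    rw [hve]
    exact h2
  have hmem : ∀ s, v s ∈ M.space ((c * Fintype.card t + 1) * n) := by
    intro s
    have h1 : ∀ T : Finset t, (∏ i ∈ T, (i : L) ^ (s i : ℕ)) ∈ M.space (c * n * T.card) := by
      intro T
      induction T using Finset.induction_on with
      | empty => simpa using M.one_mem_space 0
      | insert i T hi ih =>
        rw [Finset.prod_insert hi, Finset.card_insert_of_notMem hi, Nat.mul_succ, Nat.add_comm]
        refine M.mul_mem_space ?_ ih
        exact M.space_mono (Nat.mul_le_mul_left c (Nat.lt_succ_iff.1 (s i).2))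
          (M.pow_mem_space (hc _ (by simp)) _)
    refine M.space_mono ?_ (h1 Finset.univ)
    rw [Finset.card_univ, Nat.add_mul, Nat.mul_assoc, Nat.mul_assoc, Nat.mul_comm n]
    omega
  have h := (LinearIndependent.of_comp (M.space _).subtype
    (v := fun s => (⟨v s, hmem s⟩ : M.space _)) hv).fintype_card_le_finrank
  simpa using h

end FLTA.AbelianVar.Growth.DivisorModel
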