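import Fermat.Agent.AbelianVar.Growth.Sandwich
import Fermat.Agent.AbelianVar.Growth.Bounds

/-!
# Degree from growth

If `L(m φ^* D)` and `L(q m D)` have equal dimensions for all iterates of a finite separable
endomorphism `φ` of the function field, then `deg φ = q ^ g`, `g` the transcendence degree.
-/

set_option autoImplicit false

open Module

namespace FLTA.AbelianVar.Growth

/-- Degree of a homomorphism of fields. -/
noncomputable def homDegree {A B : Type*} [Field A] [Field B] (φ : A →+* B) : ℕ :=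
  letI := φ.toAlgebra
  finrank A B

/-- A homomorphism of fields defining a finite separable extension. -/
def IsFiniteSeparableHom {A B : Type*} [Field A] [Field B] (φ : A →+* B) : Prop :=
  letI := φ.toAlgebra
  FiniteDimensional A B ∧ Algebra.IsSeparable A B

theorem homDegree_id {A : Type*} [Field A] : homDegree (RingHom.id A) = 1 :=
  Module.finrank_self A

theorem homDegree_comp {A B C : Type*} [Field A] [Field B] [Field C] (φ : A →+* B)
    (ψ : B →+* C) : homDegree (ψ.comp φ) = homDegree φ * homDegree ψ := by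
  let : Algebra A B := φ.toAlgebra
  let : Algebra B C := ψ.toAlgebra
  let : Algebra A C := (ψ.comp φ).toAlgebra
  have : IsScalarTower A B C := IsScalarTower.of_algebraMap_eq fun _ => rfl
  exact (Module.finrank_mul_finrank A B C).symm

theorem isFiniteSeparableHom_id {A : Type*} [Field A] :
    IsFiniteSeparableHom (RingHom.id A) :=
  ⟨inferInstanceAs (FiniteDimensional A A), inferInstanceAs (Algebra.IsSeparable A A)⟩

theorem IsFiniteSeparableHom.comp {A B C : Type*} [Field A] [Field B] [Field C] {φ : A →+* B}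
    {ψ : B →+* C} (hφ : IsFiniteSeparableHom φ) (hψ : IsFiniteSeparableHom ψ) :
    IsFiniteSeparableHom (ψ.comp φ) := by
  let : Algebra A B := φ.toAlgebra
  let : Algebra B C := ψ.toAlgebra
  let : Algebra A C := (ψ.comp φ).toAlgebra
  have : IsScalarTower A B C := IsScalarTower.of_algebraMap_eq fun _ => rfl
  have : FiniteDimensional A B := hφ.1
  have : FiniteDimensional B C := hψ.1
  have : Algebra.IsSeparable A B := hφ.2
  have : Algebra.IsSeparable B C := hψ.2
  exact ⟨FiniteDimensional.trans A B C, Algebra.IsSeparable.trans A B C⟩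

theorem homDegree_pos {A B : Type*} [Field A] [Field B] {φ : A →+* B}
    (hφ : IsFiniteSeparableHom φ) : 0 < homDegree φ := by
  let : Algebra A B := φ.toAlgebra
  have : FiniteDimensional A B := hφ.1
  exact Module.finrank_pos

theorem eq_of_forall_pow_le {a b K : ℕ} (hb : 0 < b)
    (h : ∀ j, a ^ j ≤ K * b ^ j) : a ≤ b := by
  by_contra hlt
  rw [not_le] at hlt
  -- `(b + 1) ^ j ≥ b ^ (j - 1) * (b + j)`
  have key : ∀ j, b ^ j * (b + j) ≤ b * (b + 1) ^ j := by
    intro j
    induction j with
    | zero => simp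
    | succ j ih =>
      calc b ^ (j + 1) * (b + (j + 1)) ≤ b ^ j * (b + j) * (b + 1) := by
            rw [pow_succ]; nlinarith [Nat.zero_le (b ^ j * j)]
        _ ≤ b * (b + 1) ^ j * (b + 1) := Nat.mul_le_mul_right _ ih
        _ = b * (b + 1) ^ (j + 1) := by rw [pow_succ]; ring
  have hj := h (b * K)
  have h1 : (b + 1) ^ (b * K) ≤ K * b ^ (b * K) :=
    le_trans (Nat.pow_le_pow_left hlt _) hj
  have h2 := key (b * K)
  have h3 : 0 < b ^ (b * K) := pow_pos hb _
  nlinarith

namespace DivisorModel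

variable {k L : Type*} [Field k] [Field L] [Algebra k L] [PerfectField k]
  [Algebra.EssFiniteType k L] (M : DivisorModel k L)

theorem exists_degree_bound :
    ∃ K, ∀ (φ : L →ₐ[k] L), IsFiniteSeparableHom φ.toRingHom → ∀ q, 0 < q →
      (∀ m, finrank k (M.pullSpace φ m) = finrank k (M.space (q * m))) →
      homDegree φ.toRingHom ≤ K * q ^ (Cardinal.toNat (Algebra.trdeg k L)) ∧
        q ^ (Cardinal.toNat (Algebra.trdeg k L)) ≤ K * homDegree φ.toRingHom := by
  obtain ⟨C, hC⟩ := M.finite_and_finrank_space_le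
  have hspf : ∀ m, Module.Finite k (M.space m) := fun m => (hC m).1
  obtain ⟨c₀, hc₀, hlow⟩ := M.exists_pow_le_finrank_space
  generalize Cardinal.toNat (Algebra.trdeg k L) = g at hC hlow ⊢
  refine ⟨C * (c₀ + 1) ^ g, fun φ hφ q hq heq => ?_⟩
  -- apply the sandwich to `L` viewed as an extension of itself through `φ`
  have key : (∃ c, ∀ m, homDegree φ.toRingHom * finrank k (M.space m) ≤
      finrank k (M.pullSpace φ (m + c))) ∧ (∃ c, ∀ m, Module.Finite k (M.pullSpace φ m) ∧
        finrank k (M.pullSpace φ m) ≤ homDegree φ.toRingHom * finrank k (M.space (m + c))) := by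
    let iA : Algebra L L := φ.toRingHom.toAlgebra
    have hT : @IsScalarTower k L L _ iA.toSMul _ :=
      @IsScalarTower.of_algebraMap_eq k L L _ _ _ _ iA _ fun c => (φ.commutes c).symm
    have hup := @exists_finrank_le_mul k L L _ _ _ _ _ iA hT hφ.1 M hφ.2 _
    have hfin : ∀ m, Module.Finite k (M.pullSpace φ m) := by
      obtain ⟨c, hc⟩ := hup
      exact fun m => (hc m).1
    exact ⟨@exists_finrank_mul_le k L L _ _ _ _ _ iA hT hφ.1 M hfin, hup⟩
  obtain ⟨⟨c₁, h₁⟩, c₂, h₂⟩ := key
  generalize homDegree φ.toRingHom = d at h₁ h₂ ⊢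
  constructor
  · have h := (Nat.mul_le_mul_left d (hlow c₁)).trans (h₁ (c₀ * c₁))
    rw [heq] at h
    refine Nat.le_of_mul_le_mul_right (h.trans ((hC _).2.trans ?_))
      (pow_pos (Nat.succ_pos c₁) g)
    rw [Nat.mul_assoc C, Nat.mul_assoc C, ← mul_pow, ← mul_pow]
    gcongr
    nlinarith
  · have h := (hlow (q * (c₂ + 1))).trans (le_of_eq (by rw [Nat.mul_left_comm]))
    rw [← heq] at h
    have h' := h.trans ((h₂ _).2.trans (Nat.mul_le_mul_left d (hC _).2))
    have h3 : (q * (c₂ + 1)) ^ g ≤ (q * (c₂ + 1) + 1) ^ g := Nat.pow_le_pow_left (Nat.le_succ _) g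
    refine Nat.le_of_mul_le_mul_right (a := q ^ g) ?_ (pow_pos (Nat.succ_pos c₂) g)
    rw [← mul_pow]
    refine (h3.trans h').trans ?_
    rw [mul_comm d, Nat.mul_assoc (C * _) d, mul_comm d, ← Nat.mul_assoc,
      Nat.mul_assoc C ((c₀ + 1) ^ g), ← mul_pow]
    gcongr
    nlinarith

/-- The degree of a finite separable endomorphism multiplying the divisor by `q` is `q ^ g`. -/
theorem homDegree_eq_pow (φ : ℕ → (L →ₐ[k] L)) (hφ : ∀ j, IsFiniteSeparableHom (φ j).toRingHom)
    {q d : ℕ} (hq : 0 < q) (hd : ∀ j, homDegree (φ j).toRingHom = d ^ j)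
    (heq : ∀ j m, finrank k (M.pullSpace (φ j) m) = finrank k (M.space (q ^ j * m))) :
    d = q ^ (Cardinal.toNat (Algebra.trdeg k L)) := by
  obtain ⟨K, hK⟩ := M.exists_degree_bound
  have hd0 : 0 < d := by
    have h1 := homDegree_pos (hφ 1)
    rwa [hd, pow_one] at h1
  generalize Cardinal.toNat (Algebra.trdeg k L) = g at hK ⊢
  have h : ∀ j, d ^ j ≤ K * (q ^ g) ^ j ∧ (q ^ g) ^ j ≤ K * d ^ j := fun j => by
    rw [← pow_mul, Nat.mul_comm g j, pow_mul, ← hd j]
    exact hK _ (hφ j) _ (pow_pos hq j) (heq j)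
  exact le_antisymm (eq_of_forall_pow_le (pow_pos hq g) fun j => (h j).1)
    (eq_of_forall_pow_le hd0 fun j => (h j).2)

end DivisorModel

end FLTA.AbelianVar.Growth
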