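import Mathlib

/-!
Valuative integrality helpers for the growth argument (degree of multiplication maps).
-/

set_option autoImplicit false

open Polynomial

namespace FLTA.AbelianVar.Growth

variable {L : Type*} [Field L]

/-- Roots of monic polynomials with coefficients in a valuation ring lie in the valuation ring. -/
theorem mem_of_isRoot (w : ValuationSubring L) (p : L[X]) (hp : p.Monic)
    (hc : ∀ j, p.coeff j ∈ w) {x : L} (hx : p.eval x = 0) : x ∈ w := by
  have hl : p ∈ lifts (algebraMap w L) := by
    rw [lifts_iff_coeff_lifts]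
    exact fun j => ⟨⟨_, hc j⟩, rfl⟩
  obtain ⟨q, hq, -, hqm⟩ := lifts_and_natDegree_eq_and_monic hl hp
  have hint : IsIntegral w x := ⟨q, hqm, by rw [eval₂_eq_eval_map, hq, hx]⟩
  obtain ⟨y, hy⟩ := (IsIntegrallyClosed.isIntegral_iff (R := w) (K := L)).1 hint
  exact hy ▸ y.2

/-- Integral elements lie in every valuation ring containing the base. -/
theorem mem_of_isIntegralElem {A : Type*} [CommRing A] (φ : A →+* L) (w : ValuationSubring L)
    (hw : ∀ a, φ a ∈ w) {x : L} (hx : φ.IsIntegralElem x) : x ∈ w := by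
  obtain ⟨p, hp, hpx⟩ := hx
  refine mem_of_isRoot w (p.map φ) (hp.map φ) (fun j => ?_) ?_
  · rw [coeff_map]; exact hw _
  · rwa [eval_map]

/-- An element in every valuation ring containing the base is integral. -/
theorem isIntegralElem_of_forall_mem {A : Type*} [CommRing A] (φ : A →+* L) {x : L}
    (hx : ∀ w : ValuationSubring L, (∀ a, φ a ∈ w) → x ∈ w) : φ.IsIntegralElem x := by
  have h1 : x ∈ (⨅ V : {V : ValuationSubring L // Set.range φ ⊆ V.toSubring},
      V.1.toSubring : Subring L) :=
    Subring.mem_iInf.2 fun V => hx V.1 fun a => V.2 ⟨a, rfl⟩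
  rw [iInf_valuationSubring_superset] at h1
  obtain ⟨p, hp, hpx⟩ := h1
  have hrange : Subring.closure (Set.range φ) = φ.range := by
    rw [← RingHom.coe_range, Subring.closure_eq]
  set P := p.map (algebraMap (Subring.closure (Set.range φ)) L) with hP
  have hl : P ∈ lifts φ := by
    rw [lifts_iff_coeff_lifts]
    intro j
    rw [hP, coeff_map]
    have : ((p.coeff j : Subring.closure (Set.range φ)) : L) ∈ φ.range := hrange ▸ (p.coeff j).2
    exact this
  obtain ⟨q, hq, -, hqm⟩ := lifts_and_natDegree_eq_and_monic hl (hp.map _)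
  exact ⟨q, hqm, by rw [eval₂_eq_eval_map, hq, hP, eval_map]; exact hpx⟩

/-- If `e` is a root of a monic polynomial whose coefficients become members of `w` after
multiplying by suitable powers of `t ∈ w`, then `t ^ c * e ∈ w`. -/
theorem pow_mul_mem_of_isRoot (w : ValuationSubring L) (p : L[X]) (hp : p.Monic) {t : L}
    (ht : t ∈ w) {c : ℕ} (hc : ∀ j, j < p.natDegree → t ^ c * p.coeff j ∈ w) {x : L}
    (hx : p.eval x = 0) : t ^ c * x ∈ w := by
  refine mem_of_isRoot w (p.scaleRoots (t ^ c)) ((monic_scaleRoots_iff _).2 hp) (fun j => ?_) ?_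
  · rw [coeff_scaleRoots]
    rcases lt_trichotomy j p.natDegree with h | h | h
    · obtain ⟨i, hi⟩ : ∃ i, p.natDegree - j = i + 1 := ⟨p.natDegree - j - 1, by omega⟩
      rw [hi, pow_succ', ← mul_assoc, mul_comm (p.coeff j) (t ^ c)]
      exact mul_mem (hc j h) (pow_mem (pow_mem ht c) i)
    · rw [h, Nat.sub_self, pow_zero, mul_one, coeff_natDegree, hp.leadingCoeff]
      exact one_mem w
    · rw [coeff_eq_zero_of_natDegree_lt h, zero_mul]
      exact zero_mem w
  · rw [scaleRoots_eval_mul, hx, mul_zero]

end FLTA.AbelianVar.Growth
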