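import Fermat.Agent.AbelianVar.Growth.VInt

/-!
# Divisor models of function fields

A `DivisorModel k L` is the field-theoretic shadow of a proper normal variety with function
field `L`, a finite affine cover with coordinate rings `R i ⊆ L`, and an effective Cartier
divisor `D` given by `eqn i` on the `i`-th chart, whose complement is the chart `aff`.
-/

set_option autoImplicit false

open Polynomial

namespace FLTA.AbelianVar.Growth

/-- A finite normal affine cover of a proper model of `L/k`, with an effective Cartier divisor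
given by local equations, whose complement is the affine chart `aff`. -/
structure DivisorModel (k L : Type*) [Field k] [Field L] [Algebra k L] where
  /-- number of charts -/
  n : ℕ
  /-- coordinate rings -/
  R : Fin n → Subalgebra k L
  /-- local equations of the divisor -/
  eqn : Fin n → L
  /-- the chart away from the divisor -/
  aff : Fin n
  eqn_mem : ∀ i, eqn i ∈ R i
  eqn_ne : ∀ i, eqn i ≠ 0
  eqn_aff : eqn aff = 1
  normal : ∀ i x, ((R i).val.toRingHom).IsIntegralElem x → x ∈ R i
  exhaust : ∀ x ∈ R aff, ∀ i, ∃ c : ℕ, eqn i ^ c * x ∈ R i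
  frac_aff : ∀ x : L, ∃ b ∈ R aff, b ≠ 0 ∧ b * x ∈ R aff
  cover : ∀ w : ValuationSubring L, (∀ a, algebraMap k L a ∈ w) → ∃ i, ∀ x ∈ R i, x ∈ w

variable {k L L' : Type*} [Field k] [Field L] [Algebra k L] [Field L'] [Algebra k L']

namespace DivisorModel

variable (M : DivisorModel k L)

/-- `L(m · φ^* D)` for a `k`-embedding `φ : L → L'`. -/
def pullSpace (φ : L →ₐ[k] L') (m : ℕ) : Submodule k L' where
  carrier := {f | ∀ i, ∀ w : ValuationSubring L',
    (∀ a ∈ M.R i, φ a ∈ w) → φ (M.eqn i) ^ m * f ∈ w}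
  zero_mem' := fun i w _ => by rw [mul_zero]; exact zero_mem w
  add_mem' := fun {f g} hf hg i w hw => by
    rw [mul_add]; exact add_mem (hf i w hw) (hg i w hw)
  smul_mem' := fun a f hf i w hw => by
    rw [Algebra.smul_def, mul_left_comm, ← φ.commutes a]
    exact mul_mem (hw _ ((M.R i).algebraMap_mem a)) (hf i w hw)

theorem mem_pullSpace {φ : L →ₐ[k] L'} {m : ℕ} {f : L'} :
    f ∈ M.pullSpace φ m ↔ ∀ i, ∀ w : ValuationSubring L',
      (∀ a ∈ M.R i, φ a ∈ w) → φ (M.eqn i) ^ m * f ∈ w := Iff.rfl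

/-- `L(m · D)`. -/
def space (m : ℕ) : Submodule k L := M.pullSpace (AlgHom.id k L) m

theorem mem_space {m : ℕ} {f : L} : f ∈ M.space m ↔ ∀ i, M.eqn i ^ m * f ∈ M.R i := by
  constructor
  · intro h i
    refine M.normal i _ (isIntegralElem_of_forall_mem _ fun w hw => ?_)
    exact h i w fun a ha => hw ⟨a, ha⟩
  · intro h i w hw
    exact hw _ (h i)

theorem space_le_aff {m : ℕ} {f : L} (h : f ∈ M.space m) : f ∈ M.R M.aff := by
  simpa [M.eqn_aff] using M.mem_space.1 h M.aff

theorem space_mono {m m' : ℕ} (h : m ≤ m') : M.space m ≤ M.space m' := by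
  intro f hf
  rw [mem_space] at hf ⊢
  intro i
  obtain ⟨d, rfl⟩ := Nat.exists_eq_add_of_le h
  rw [pow_add, mul_comm _ (M.eqn i ^ d), mul_assoc]
  exact mul_mem (pow_mem (M.eqn_mem i) d) (hf i)

theorem algebraMap_mul_mem_pullSpace {φ : L →ₐ[k] L'} {a b : ℕ} {f : L} {e : L'}
    (hf : f ∈ M.space a) (he : e ∈ M.pullSpace φ b) : φ f * e ∈ M.pullSpace φ (a + b) := by
  intro i w hw
  rw [pow_add, mul_mul_mul_comm, ← map_pow, ← map_mul]
  exact mul_mem (hw _ (M.mem_space.1 hf i)) (by simpa [map_pow] using he i w hw)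

theorem mul_mem_space {a b : ℕ} {f g : L} (hf : f ∈ M.space a) (hg : g ∈ M.space b) :
    f * g ∈ M.space (a + b) :=
  M.algebraMap_mul_mem_pullSpace (φ := AlgHom.id k L) hf hg

theorem one_mem_space (m : ℕ) : (1 : L) ∈ M.space m := by
  rw [mem_space]; intro i; rw [mul_one]; exact pow_mem (M.eqn_mem i) m

theorem pow_mem_space {c : ℕ} {x : L} (hx : x ∈ M.space c) (m : ℕ) :
    x ^ m ∈ M.space (c * m) := by
  induction m with
  | zero => simpa using M.one_mem_space 0
  | succ m ih => rw [pow_succ, Nat.mul_succ]; exact M.mul_mem_space ih hx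

theorem exists_mem_space (s : Finset L) (hs : ∀ x ∈ s, x ∈ M.R M.aff) :
    ∃ c, ∀ x ∈ s, x ∈ M.space c := by
  classical
  induction s using Finset.induction_on with
  | empty => exact ⟨0, by simp⟩
  | insert a s _ ih =>
    obtain ⟨c, hc⟩ := ih fun x hx => hs x (Finset.mem_insert_of_mem hx)
    choose e he using M.exhaust a (hs a (Finset.mem_insert_self a s))
    refine ⟨max c (Finset.univ.sup e), fun x hx => ?_⟩
    rcases Finset.mem_insert.1 hx with rfl | hx
    · rw [mem_space]
      intro i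
      obtain ⟨d, hd⟩ := Nat.exists_eq_add_of_le
        ((Finset.le_sup (f := e) (Finset.mem_univ i)).trans (le_max_right c _))
      rw [hd, pow_add, mul_comm _ (M.eqn i ^ d), mul_assoc]
      exact mul_mem (pow_mem (M.eqn_mem i) d) (he i)
    · exact M.space_mono (le_max_left _ _) (hc x hx)

/-- An element integral over the affine chart lies in some `L(c · φ^* D)`. -/
theorem exists_mem_pullSpace (φ : L →ₐ[k] L') (e : L')
    (he : (φ.toRingHom.comp (M.R M.aff).val.toRingHom).IsIntegralElem e) :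
    ∃ c, e ∈ M.pullSpace φ c := by
  classical
  obtain ⟨p, hp, hpe⟩ := he
  obtain ⟨c, hc⟩ := M.exists_mem_space
    ((Finset.range p.natDegree).image fun j => ((p.coeff j : M.R M.aff) : L)) (by
      intro x hx
      obtain ⟨j, -, rfl⟩ := Finset.mem_image.1 hx
      exact (p.coeff j).2)
  refine ⟨c, fun i w hw => ?_⟩
  refine pow_mul_mem_of_isRoot w (p.map (φ.toRingHom.comp (M.R M.aff).val.toRingHom)) (hp.map _)
    (hw _ (M.eqn_mem i)) (fun j hj => ?_) (by rwa [eval_map])
  rw [hp.natDegree_map] at hj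
  rw [coeff_map, ← map_pow]
  have := hw _ (M.mem_space.1 (hc _ (Finset.mem_image.2 ⟨j, Finset.mem_range.2 hj, rfl⟩)) i)
  rwa [map_mul] at this

theorem pullSpace_mono (φ : L →ₐ[k] L') {m m' : ℕ} (h : m ≤ m') :
    M.pullSpace φ m ≤ M.pullSpace φ m' := by
  intro f hf
  obtain ⟨d, rfl⟩ := Nat.exists_eq_add_of_le h
  rw [Nat.add_comm]
  simpa using M.algebraMap_mul_mem_pullSpace (M.one_mem_space d) hf

end DivisorModel

end FLTA.AbelianVar.Growth
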