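import Fermat.Agent.AbelianVar.Growth.Model

/-!
# Sandwich for a finite separable extension

`[L' : L] · h(m) ≤ h'(m + c)` and `h'(m) ≤ [L' : L] · h(m + c)`.
-/

set_option autoImplicit false

open Polynomial Module

namespace FLTA.AbelianVar.Growth.DivisorModel

variable {k L L' : Type*} [Field k] [Field L] [Algebra k L] [Field L'] [Algebra k L']
  [Algebra L L'] [IsScalarTower k L L'] [FiniteDimensional L L'] (M : DivisorModel k L)

local notation "φ" => IsScalarTower.toAlgHom k L L'

/-- A finite family of elements, after scaling by a nonzero element of `L`, lies in some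
`L(c · φ^* D)`. -/
theorem exists_scale_mem_pullSpace {ι : Type*} [Fintype ι] (e : ι → L') :
    ∃ b : L, b ≠ 0 ∧ ∃ c, ∀ j, algebraMap L L' b * e j ∈ M.pullSpace φ c := by
  classical
  have : Algebra.IsAlgebraic (M.R M.aff) L := ⟨fun x => by
    obtain ⟨b, hb, hb0, hbx⟩ := M.frac_aff x
    refine ⟨C (⟨b, hb⟩ : M.R M.aff) * X - C ⟨b * x, hbx⟩, fun h => hb0 ?_, by
      simp⟩
    simpa using congrArg (fun p => ((p.coeff 1 : M.R M.aff) : L)) h⟩
  have : FaithfulSMul (M.R M.aff) L :=
    (faithfulSMul_iff_algebraMap_injective _ _).2 Subtype.val_injective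
  have : Algebra.IsAlgebraic (M.R M.aff) L' := Algebra.IsAlgebraic.trans (M.R M.aff) L L'
  obtain ⟨y, hy0, hy⟩ :=
    Algebra.IsAlgebraic.exists_integral_multiples (M.R M.aff) (Finset.univ.image e)
  have h : ∀ j, ∃ c, algebraMap L L' (y : L) * e j ∈ M.pullSpace φ c := fun j =>
    M.exists_mem_pullSpace φ _ <| by
      have := hy (e j) (Finset.mem_image_of_mem _ (Finset.mem_univ j))
      rwa [Algebra.smul_def] at this
  choose c hc using h
  exact ⟨y, by simpa using hy0, Finset.univ.sup c,
    fun j => M.pullSpace_mono φ (Finset.le_sup (Finset.mem_univ j)) (hc j)⟩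

/-- Lower sandwich. -/
theorem exists_finrank_mul_le
    [∀ m, Module.Finite k (M.pullSpace φ m)] :
    ∃ c, ∀ m, finrank L L' * finrank k (M.space m) ≤ finrank k (M.pullSpace φ (m + c)) := by
  classical
  let e := finBasis L L'
  obtain ⟨b, hb0, c, hc⟩ := M.exists_scale_mem_pullSpace (L' := L') e
  refine ⟨c, fun m => ?_⟩
  let F : (Fin (finrank L L') → M.space m) →ₗ[k] M.pullSpace φ (m + c) :=
    { toFun := fun f => ⟨∑ j, φ (f j : L) * (algebraMap L L' b * e j),
        sum_mem fun j _ => M.algebraMap_mul_mem_pullSpace (f j).2 (hc j)⟩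
      map_add' := fun f g => Subtype.ext <| by
        simp only [Pi.add_apply, Submodule.coe_add, map_add, add_mul, Finset.sum_add_distrib]
      map_smul' := fun a f => Subtype.ext <| by
        simp only [Pi.smul_apply, SetLike.val_smul, map_smul, smul_mul_assoc, Finset.smul_sum,
          RingHom.id_apply] }
  have hF : Function.Injective F := by
    rw [injective_iff_map_eq_zero]
    intro f hf
    have h0 : ∑ j, ((f j : L) * b) • e j = 0 := by
      have h1 : ∑ j, φ (f j : L) * (algebraMap L L' b * e j) = 0 := congrArg Subtype.val hf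
      refine Eq.trans (Finset.sum_congr rfl fun j _ => ?_) h1
      rw [Algebra.smul_def, map_mul, mul_assoc]; rfl
    funext j
    have := Fintype.linearIndependent_iff.1 e.linearIndependent _ h0 j
    exact Subtype.ext ((mul_eq_zero.1 this).resolve_right hb0)
  by_cases hfin : Module.Finite k (M.space m)
  · have := LinearMap.finrank_le_finrank_of_injective hF
    rwa [finrank_pi_fintype, Finset.sum_const, Finset.card_univ, Fintype.card_fin,
      smul_eq_mul] at this
  · rw [Module.finrank_of_not_finite hfin, mul_zero]; exact Nat.zero_le _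

/-- Upper sandwich. -/
theorem exists_finrank_le_mul [Algebra.IsSeparable L L']
    [∀ m, Module.Finite k (M.space m)] :
    ∃ c, ∀ m, Module.Finite k (M.pullSpace φ m) ∧
      finrank k (M.pullSpace φ m) ≤ finrank L L' * finrank k (M.space (m + c)) := by
  classical
  let e := finBasis L L'
  obtain ⟨b, hb0, c, hc⟩ := M.exists_scale_mem_pullSpace (L' := L') e
  refine ⟨c, fun m => ?_⟩
  have key : ∀ f ∈ M.pullSpace φ m, ∀ j,
      Algebra.trace L L' (f * (algebraMap L L' b * e j)) ∈ M.space (m + c) := by
    intro f hf j
    rw [mem_space]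
    intro i
    have hx : IsIntegral (M.R i)
        ((M.eqn i ^ (m + c)) • (f * (algebraMap L L' b * e j))) := by
      refine isIntegralElem_of_forall_mem _ fun w hw => ?_
      have hw' : ∀ a ∈ M.R i, φ a ∈ w := fun a ha => hw ⟨a, ha⟩
      rw [Algebra.smul_def, map_pow, pow_add, mul_mul_mul_comm]
      exact mul_mem (hf i w hw') (hc j i w hw')
    have hi := Algebra.isIntegral_trace (L := L) hx
    rw [map_smul, smul_eq_mul] at hi
    exact M.normal i _ hi
  let G : M.pullSpace φ m →ₗ[k] (Fin (finrank L L') → M.space (m + c)) :=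
    { toFun := fun f j => ⟨_, key f f.2 j⟩
      map_add' := fun f g => funext fun j => Subtype.ext <| by
        simp only [Submodule.coe_add, add_mul, map_add, Pi.add_apply]
      map_smul' := fun a f => funext fun j => Subtype.ext <| by
        simp only [SetLike.val_smul, smul_mul_assoc, LinearMap.map_smul_of_tower,
          RingHom.id_apply, Pi.smul_apply] }
  have hG : Function.Injective G := by
    rw [injective_iff_map_eq_zero]
    intro f hf
    have hzero : ∀ y : L', Algebra.trace L L' ((f : L') * (algebraMap L L' b * y)) = 0 := by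
      intro y
      conv_lhs => rw [← e.sum_repr y, Finset.mul_sum, Finset.mul_sum, map_sum]
      refine Finset.sum_eq_zero fun j _ => ?_
      have : Algebra.trace L L' ((f : L') * (algebraMap L L' b * e j)) = 0 :=
        congrArg Subtype.val (congrFun hf j)
      rw [mul_smul_comm, mul_smul_comm, map_smul, this, smul_zero]
    apply Subtype.ext
    refine (traceForm_nondegenerate L L').1 (f : L') fun y => ?_
    rw [Algebra.traceForm_apply]
    have hb' : algebraMap L L' b ≠ 0 := by simpa using hb0
    simpa [← mul_assoc, mul_inv_cancel₀ hb'] using hzero ((algebraMap L L' b)⁻¹ * y)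
  refine ⟨Module.Finite.of_injective G hG, ?_⟩
  have := LinearMap.finrank_le_finrank_of_injective hG
  rwa [finrank_pi_fintype, Finset.sum_const, Finset.card_univ, Fintype.card_fin,
    smul_eq_mul] at this

end FLTA.AbelianVar.Growth.DivisorModel
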